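import Fermat.Agent.S28.IntTower
import Fermat.Agent.S28.FormalBasic

/-!
# S36 / Mod / IntUnit / Formal : three formal lemmas on `(evAt x).IsIntegralElem y`   (tasks S36/IU-ol, S36/IU-dsc, S36/IU-inv)

`evAt x : R[X] →+* R((q))`, `P ↦ P(x)` (`S28.evAt`, `evAt_C`, `evAt_X`).

* `exists_pow_mul_isIntegralElem` (IU-ol).  `j0 t^a = Q(t)`, `y` integral over `R[j0]`  ⟹  `t^m y` integral over `R[t]` for some `m`.
  PROOF.  `p ∈ R[X][Y]` monic, `eval₂ (evAt j0) y p = 0`.  `d :=` a bound for the `natDegree` of all coefficients of `p` (`Finset.sup` over `p.support`, or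
  `p.support.sup fun n => (p.coeff n).natDegree`).  KEY: for `c : R[X]` with `c.natDegree ≤ d`: `evAt j0 c * t^(a*d) ∈ (evAt t).range`
  (`c(j0) t^(ad) = ∑_k c_k (j0 t^a)^k t^(a(d-k)) = ∑_k c_k Q(t)^k t^(a (d-k))`; `Polynomial.eval₂_eq_sum_range'` / `Polynomial.as_sum_range'`, or induction on `c`).
  `m := a*d`, `pS := p.map (evAt j0)`, `qS := pS.scaleRoots (t^m)`: monic (`Polynomial.monic_scaleRoots_iff`), root `t^m * y`
  (`Polynomial.scaleRoots_eval₂_eq_zero` with `f = RingHom.id _`, or `scaleRoots_aeval_eq_zero`), coefficients `pS.coeff i * (t^m)^(n-i)` (`coeff_scaleRoots`): `= 1` for `i = n`, in the range for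
  `i < n` (KEY times a power of `t = evAt t X`), `0` for `i > n`.  So `qS ∈ Polynomial.lifts (evAt t)` (`lifts_iff_coeff_lifts`), `lifts_and_natDegree_eq_and_monic`, `eval₂_map`.
* `isIntegralElem_descent` (IU-dsc).  Integrality descends along a field extension `i : K0 → K1` of the coefficients.
  PROOF.  `K1` is a `K0`-vector space (`i.toAlgebra`); `ρ : K1 →ₗ[K0] K0` with `ρ (i c) = c` (`LinearMap.exists_leftInverse_of_injective (Algebra.linearMap K0 K1)`).
  `p ∈ K1[X][Y]` monic with root; `p' :=` apply `ρ` to all coefficients (e.g. `p' = ∑ n ∈ range (N+1), ∑ m ∈ range (D+1), C (C (ρ ((p.coeff n).coeff m))) * C X^m * X^n`, or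
  build it with `Polynomial.ofFinsupp`/`Finsupp.mapRange`; monic since `ρ 1 = 1`, `ρ 0 = 0`).  The coefficient of `q^k` in `eval₂ (evAt (ι x)) (ι y) p` is `∑_{n,m} c_{nm} * i ((x^m y^n).coeff k)`
  (`coeffMap` is a ring hom, `coeffMap_coeff`, `HahnSeries.C_mul`-coefficient lemma `HahnSeries.coeff_C_mul`/`HahnSeries.C_mul_eq_smul`); apply `ρ` (`ρ (c * i a) = ρ c * a` by `K0`-linearity).
* `isIntegralElem_inv` (IU-inv).  `P(x) = j x`, `P(0)` a unit, `x u = 1`  ⟹  `u` integral over `A[j]`.
  PROOF.  `D = natDegree P`.  `evAt u P.reverse = u^D * evAt x P` (`Polynomial.eval₂_reverse_mul_pow` with `Invertible`, or direct) `= j * u^(D-1)`.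
  `R := (P.reverse).map C - C X * X^(D-1) : A[X][X]`; `natDegree R = D`, leading coefficient `C (P.eval 0)` (`coeff_zero_eq_eval_zero`, `reverse_leadingCoeff`/`coeff_reverse`, `revAt`), unit with inverse `C c`;
  `C (C c) * R` is monic with root `u`.
-/

set_option autoImplicit false

open Polynomial ModularCurve

namespace Fermat.Agent.S36.Mod.IntUnit

open Fermat.Agent.S28

/-- (IU-ol) -/
theorem exists_pow_mul_isIntegralElem {R : Type*} [CommRing R] (t j0 y : LaurentSeries R) (a : ℕ)
    (Q : R[X]) (hj : j0 * t ^ a = evAt t Q) (hy : (evAt j0).IsIntegralElem y) :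
    ∃ m : ℕ, (evAt t).IsIntegralElem (t ^ m * y) := by
  classical
  obtain ⟨p, hp, hroot⟩ := hy
  set d : ℕ := p.support.sup fun n => (p.coeff n).natDegree with hd
  have hdeg : ∀ n, (p.coeff n).natDegree ≤ d := by
    intro n
    by_cases hn : n ∈ p.support
    · exact Finset.le_sup (f := fun n => (p.coeff n).natDegree) hn
    · rw [notMem_support_iff.1 hn, natDegree_zero]
      exact Nat.zero_le _
  -- KEY
  have key : ∀ c : R[X], c.natDegree ≤ d → evAt j0 c * t ^ (a * d) ∈ Set.range (evAt t) := by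
    intro c hc
    refine ⟨∑ k ∈ Finset.range (d + 1), C (c.coeff k) * Q ^ k * X ^ (a * (d - k)), ?_⟩
    rw [map_sum, Build.evAt_apply j0 c, eval₂_eq_sum_range' _ (Nat.lt_succ_of_le hc), Finset.sum_mul]
    refine Finset.sum_congr rfl fun k hk => ?_
    have hk' : k ≤ d := Nat.lt_succ_iff.1 (Finset.mem_range.1 hk)
    have e1 : a * d = a * k + a * (d - k) := by
      rw [← Nat.mul_add, Nat.add_sub_cancel' hk']
    rw [map_mul, map_mul, map_pow, map_pow, Build.evAt_C, Build.evAt_X, ← hj, e1, pow_add, mul_pow, ← pow_mul]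
    ring
  set pS := p.map (evAt j0) with hpS
  have hpSm : pS.Monic := hp.map _
  set qS := pS.scaleRoots (t ^ (a * d)) with hqS
  have hqSm : qS.Monic := (monic_scaleRoots_iff _).2 hpSm
  have hrootS : eval₂ (RingHom.id _) y pS = 0 := by
    rw [hpS, eval₂_map, RingHom.id_comp]
    exact hroot
  have hrootq : eval₂ (RingHom.id _) (t ^ (a * d) * y) qS = 0 :=
    scaleRoots_eval₂_eq_zero (RingHom.id _) hrootS
  have hlift : qS ∈ lifts (evAt t) := by
    rw [lifts_iff_coeff_lifts]
    intro i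
    rw [hqS, coeff_scaleRoots]
    rcases lt_trichotomy i pS.natDegree with hi | hi | hi
    · obtain ⟨g, hg⟩ := key (p.coeff i) (hdeg i)
      refine ⟨g * X ^ (a * d * (pS.natDegree - i - 1)), ?_⟩
      have e2 : pS.natDegree - i = 1 + (pS.natDegree - i - 1) := by omega
      rw [map_mul, hg, map_pow, Build.evAt_X, hpS, coeff_map]
      conv_rhs => rw [← hpS, e2, pow_add, pow_one, ← pow_mul]
      ring
    · refine ⟨1, ?_⟩
      rw [hi, Nat.sub_self, pow_zero, mul_one, map_one]
      exact hpSm.coeff_natDegree.symm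
    · refine ⟨0, ?_⟩
      rw [coeff_eq_zero_of_natDegree_lt hi, zero_mul, map_zero]
  obtain ⟨q, hq, -, hqm⟩ := lifts_and_natDegree_eq_and_monic hlift hqSm
  refine ⟨a * d, q, hqm, ?_⟩
  rw [← hq, eval₂_map, RingHom.id_comp] at hrootq
  exact hrootq

/-- coefficientwise application of an additive map. -/
noncomputable def IUdsc_map {K0 K1 : Type*} [Field K0] [Field K1] (ρ : K1 →+ K0) :
    LaurentSeries K1 →+ LaurentSeries K0 where
  toFun x := x.map ρ
  map_zero' := by ext n; simp
  map_add' x y := by ext n; simp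

theorem IUdsc_map_coeff {K0 K1 : Type*} [Field K0] [Field K1] (ρ : K1 →+ K0)
    (x : LaurentSeries K1) (n : ℤ) : (IUdsc_map ρ x).coeff n = ρ (x.coeff n) := rfl

theorem IUdsc_map_mul {K0 K1 : Type*} [Field K0] [Field K1] (i : K0 →+* K1) (ρ : K1 →+ K0)
    (hρ : ∀ (c : K1) (a : K0), ρ (c * i a) = ρ c * a) (x : LaurentSeries K1)
    (z : LaurentSeries K0) : IUdsc_map ρ (x * coeffMap i z) = IUdsc_map ρ x * z := by
  have hs1 : (coeffMap i z).support ⊆ z.support := by
    intro n hn
    rw [HahnSeries.mem_support] at hn ⊢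
    intro h0
    exact hn (by rw [coeffMap_coeff, h0, map_zero])
  have hs2 : (IUdsc_map ρ x).support ⊆ x.support := by
    intro n hn
    rw [HahnSeries.mem_support] at hn ⊢
    intro h0
    exact hn (by rw [IUdsc_map_coeff, h0, map_zero])
  ext n
  rw [IUdsc_map_coeff, HahnSeries.coeff_mul_right' z.isPWO_support hs1,
    HahnSeries.coeff_mul_left' x.isPWO_support hs2, map_sum]
  refine Finset.sum_congr rfl fun ij _ => ?_
  rw [coeffMap_coeff, IUdsc_map_coeff, hρ]

/-- (IU-dsc) -/
theorem isIntegralElem_descent {K0 K1 : Type*} [Field K0] [Field K1] (i : K0 →+* K1)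
    (x y : LaurentSeries K0) (h : (evAt (coeffMap i x)).IsIntegralElem (coeffMap i y)) :
    (evAt x).IsIntegralElem y := by
  let _ := i.toAlgebra
  obtain ⟨ρ, hρ⟩ := LinearMap.exists_leftInverse_of_injective (Algebra.linearMap K0 K1)
    (LinearMap.ker_eq_bot.2 i.injective)
  have hρi : ∀ a : K0, ρ (i a) = a := fun a => LinearMap.congr_fun hρ a
  have hρm : ∀ (c : K1) (a : K0), ρ.toAddMonoidHom (c * i a) = ρ.toAddMonoidHom c * a := by
    intro c a
    show ρ (c * i a) = ρ c * a
    have e : c * i a = a • c := by rw [Algebra.smul_def, mul_comm]; rfl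
    rw [e, map_smul, smul_eq_mul, mul_comm]
  set R := IUdsc_map ρ.toAddMonoidHom with hR
  have hmul : ∀ (X : LaurentSeries K1) (z : LaurentSeries K0), R (X * coeffMap i z) = R X * z :=
    IUdsc_map_mul i _ hρm
  have hbc : ∀ z : LaurentSeries K0, R (coeffMap i z) = z := by
    intro z
    ext n
    exact hρi _
  -- polynomials in `x`
  have hpoly : ∀ c : K1[X], ∃ c' : K0[X], R (evAt (coeffMap i x) c) = evAt x c' := by
    intro c
    induction c using Polynomial.induction_on' with
    | add a b ha hb =>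
      obtain ⟨a', ha'⟩ := ha
      obtain ⟨b', hb'⟩ := hb
      exact ⟨a' + b', by rw [map_add, map_add, map_add, ha', hb']⟩
    | monomial m a =>
      refine ⟨Polynomial.monomial m (ρ a), ?_⟩
      have e1 : evAt (coeffMap i x) (Polynomial.monomial m a)
          = HahnSeries.C a * coeffMap i (x ^ m) := by
        rw [← C_mul_X_pow_eq_monomial, map_mul, map_pow, Build.evAt_apply, Build.evAt_apply, eval₂_C, eval₂_X,
          map_pow]
      have e2 : evAt x (Polynomial.monomial m (ρ a)) = HahnSeries.C (ρ a) * x ^ m := by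
        rw [← C_mul_X_pow_eq_monomial, map_mul, map_pow, Build.evAt_apply, Build.evAt_apply, eval₂_C, eval₂_X]
      rw [e1, e2, hmul]
      congr 1
      ext n
      show ρ ((HahnSeries.C a).coeff n) = (HahnSeries.C (ρ a)).coeff n
      rw [HahnSeries.C_apply, HahnSeries.C_apply]
      rcases eq_or_ne n 0 with rfl | hn
      · rw [HahnSeries.coeff_single_same, HahnSeries.coeff_single_same]
      · rw [HahnSeries.coeff_single_of_ne hn, HahnSeries.coeff_single_of_ne hn, map_zero]
  obtain ⟨P, hPm, hP⟩ := h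
  choose a' ha' using fun n : ℕ => hpoly (P.coeff n)
  rw [eval₂_eq_sum_range, Finset.sum_range_succ, hPm.coeff_natDegree, map_one, one_mul,
    Finset.sum_range] at hP
  have h1 := congrArg R hP
  rw [map_add, map_sum, map_zero, ← map_pow, hbc] at h1
  refine ⟨X ^ P.natDegree + ∑ n : Fin P.natDegree, C (a' n) * X ^ (n : ℕ),
    monic_X_pow_add (degree_sum_fin_lt _), ?_⟩
  rw [eval₂_add, eval₂_pow, eval₂_X, eval₂_finsetSum, add_comm, ← h1]
  congr 1
  refine Finset.sum_congr rfl fun n _ => ?_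
  rw [eval₂_mul, eval₂_C, eval₂_pow, eval₂_X, ← map_pow, hmul, ha']

/-- (IU-inv) -/
theorem isIntegralElem_inv {A : Type*} [CommRing A] [IsDomain A] (P : A[X]) (hP : P.Monic)
    (hdeg : 2 ≤ P.natDegree) (hP0 : IsUnit (P.eval 0)) (x u j : LaurentSeries A) (hxu : x * u = 1)
    (hid : evAt x P = j * x) : (evAt j).IsIntegralElem u := by
  obtain ⟨c, hc⟩ := hP0.exists_left_inv
  rw [← coeff_zero_eq_eval_zero] at hc
  have hc0 : P.coeff 0 ≠ 0 := by
    intro h
    rw [h, mul_zero] at hc
    exact zero_ne_one hc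
  have hcne : c ≠ 0 := by
    rintro rfl
    rw [zero_mul] at hc
    exact zero_ne_one hc
  have htr : P.natTrailingDegree = 0 := natTrailingDegree_eq_zero.mpr (Or.inr hc0)
  set D := P.natDegree with hD
  have hp1 : (C c * P.reverse).Monic := by
    rw [Monic, leadingCoeff_mul, leadingCoeff_C, reverse_leadingCoeff, trailingCoeff, htr, hc]
  have hp1d : (C c * P.reverse).natDegree = D := by
    rw [natDegree_C_mul hcne, reverse_natDegree, htr, Nat.sub_zero]
  have hmon : ((C c * P.reverse).map C - C (C c * X) * X ^ (D - 1) : A[X][X]).Monic := by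
    refine (hp1.map C).sub_of_left ?_
    refine lt_of_le_of_lt (degree_C_mul_X_pow_le _ _) ?_
    rw [degree_eq_natDegree (hp1.map C).ne_zero, hp1.natDegree_map, hp1d]
    exact_mod_cast (by omega : D - 1 < D)
  refine ⟨_, hmon, ?_⟩
  have hcomp : (evAt j).comp (C : A →+* A[X]) = (HahnSeries.C : A →+* LaurentSeries A) := by
    ext1 a
    exact Build.evAt_C j a
  let _ : Invertible x := ⟨u, by rw [mul_comm]; exact hxu, hxu⟩
  have h1 : eval₂ (HahnSeries.C : A →+* LaurentSeries A) u P.reverse * x ^ D = j * x :=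
    (eval₂_reverse_mul_pow (HahnSeries.C : A →+* LaurentSeries A) x P).trans hid
  have h2 : eval₂ (HahnSeries.C : A →+* LaurentSeries A) u P.reverse = j * u ^ (D - 1) := by
    have hxuD : x ^ D * u ^ D = 1 := by rw [← mul_pow, hxu, one_pow]
    have hDs : u ^ D = u ^ (D - 1) * u := by
      rw [← pow_succ]
      congr 1
      omega
    calc eval₂ (HahnSeries.C : A →+* LaurentSeries A) u P.reverse
        = eval₂ (HahnSeries.C : A →+* LaurentSeries A) u P.reverse * x ^ D * u ^ D := by
          rw [mul_assoc, hxuD, mul_one]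
      _ = j * x * (u ^ (D - 1) * u) := by rw [h1, hDs]
      _ = j * u ^ (D - 1) * (x * u) := by ring
      _ = j * u ^ (D - 1) := by rw [hxu, mul_one]
  rw [eval₂_sub, eval₂_map, hcomp, eval₂_mul, eval₂_C, h2, eval₂_mul, eval₂_C, eval₂_pow, eval₂_X,
    map_mul, Build.evAt_C, Build.evAt_X]
  ring

end Fermat.Agent.S36.Mod.IntUnit
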