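import Fermat.Agent.S28.IntTower
import Fermat.Agent.S28.FormalBasic
import Fermat.Agent.Crux.G.Sat

/-!
# S36 / Mod / IntUnit / Sat : saturation for Laurent series     (task S36/IU-sat)

`A` a DVR, `K = Frac A`, `ι = coeffMap (algebraMap A K) : A((q)) → K((q))` (injective), `t, y ∈ A((q))`, `ι t` transcendental over `K`.
If `t^m y` is integral over `A[t]` and `ι y` is integral over `K[ι t]` then `y` is integral over `A[t]`.

PROOF.  This is `Crux.G.isIntegral_of_isOL_of_isBK` (`Crux/G/Sat.lean`) for a suitable chart.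
* `π` : `IsDiscreteValuationRing.exists_irreducible A`, `hπ.prime`.  `Ω := LaurentSeries K` (a field).  `φ := ι.comp (evAt t) : A[X] →+* Ω` (`= (evAt (ι t)).comp (mapRingHom (algebraMap A K))`,
  `S28.coeffMap_comp_evAt`); `φ` is injective (`ht`, `Polynomial.map_injective`, `IsFractionRing.injective A K`; `evAt (ι t) P = aeval (ι t) P`: `HahnSeries.C = algebraMap K Ω`, see `S28.evAt`, `Polynomial.aeval_def`;
  `transcendental_iff_injective`).
* `letI : Algebra A[X] Ω := φ.toAlgebra`;  `E := FractionRing A[X]`;  `letI : Algebra E Ω := (IsFractionRing.lift (K := E) hφinj).toAlgebra`; `IsScalarTower A[X] E Ω` (`IsScalarTower.of_algebraMap_eq`, `IsFractionRing.lift_algebraMap`).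
* `ι y` is integral over `A[X]`-fractions: `IsAlgebraic E (ι y)` (from `h1`: `t^m y` integral over `A[X]`, so `X^m • ι y` integral over `E`, divide by `algebraMap (X^m) ≠ 0`; or from `h2`).
  `L := IntermediateField.adjoin E {ι y}`, `FiniteDimensional E L` (`IntermediateField.adjoin.finiteDimensional`), `Y : L := AdjoinSimple.gen E (ι y)`; `Algebra A[X] L`, `IsScalarTower A[X] E L` are instances
  (`IntermediateField.algebra'`, `IntermediateField.isScalarTower`); integrality over `A[X]` of an element of `L` ⟺ of its image in `Ω` (`isIntegral_algebraMap_iff (algebraMap L Ω).injective`, needs `IsScalarTower A[X] L Ω`).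
  (ALTERNATIVE: avoid `L`: copy the 40-line proof of `isIntegral_of_isOL_of_isBK`, which only uses `minpoly E y`, for `y ∈ Ω` algebraic over `E`.)
* `IsOL π Y` : `s = X^m`, `¬ C π ∣ X^m` (compare the coefficient `m`: `π ∣ 1`; `Polynomial.C_dvd_iff_dvd_coeff`, `coeff_X_pow`), `X^m • Y` integral from `h1` (push the monic polynomial through `ι`: `Polynomial.hom_eval₂`).
* `IsBK π Y` : `K[X]` is the localization of `A[X]` at `(nonZeroDivisors A).map C` (`Polynomial.isLocalization`); `IsIntegral.exists_multiple_integral_of_isLocalization` gives `a ≠ 0` with `C a • ι y` integral over `A[X]`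
  (algebra `K[X] → Ω` `:= (evAt (ι t)).toAlgebra`, tower by `coeffMap_comp_evAt`); `a = u π^j` (`IsDiscreteValuationRing.eq_unit_mul_pow_irreducible`), multiply by `C u⁻¹`.
  (Or by hand: `scaleRoots`.)
* conclusion: a monic `p : A[X][X]` with `eval₂ φ (ι y) p = 0`, so `ι (eval₂ (evAt t) y p) = 0` (`Polynomial.hom_eval₂`), `ι` injective (`S28.coeffMap_injective` or `HahnSeries.ext` + `coeffMap_coeff`).
-/

set_option autoImplicit false

open Polynomial ModularCurve

namespace Fermat.Agent.S36.Mod.IntUnit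

open Fermat.Agent.S28 Fermat.Agent.S28.Build Fermat.Agent.Crux.G

/-- abstract saturation in an arbitrary field `Ω ⊇ A[X]` (copy of
`Crux.G.isIntegral_of_isOL_of_isBK` without finite-dimensionality). -/
theorem Sat_abstract {A : Type*} [CommRing A] [IsDomain A] [IsIntegrallyClosed A] {π : A}
    (hπ : Prime π) {Ω : Type*} [Field Ω] [Algebra A[X] Ω]
    (hinjΩ : Function.Injective (algebraMap A[X] Ω)) {y : Ω} {s : A[X]} (hs : ¬ C π ∣ s)
    (h1 : IsIntegral A[X] (s • y)) {j : ℕ} (h2 : IsIntegral A[X] ((C π : A[X]) ^ j • y)) :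
    IsIntegral A[X] y := by
  let E := FractionRing A[X]
  let _ : Algebra E Ω := (IsFractionRing.lift (K := E) hinjΩ).toAlgebra
  have : IsScalarTower A[X] E Ω :=
    IsScalarTower.of_algebraMap_eq (fun x => (IsFractionRing.lift_algebraMap hinjΩ x).symm)
  have hinj := IsFractionRing.injective A[X] E
  have hs0 : s ≠ 0 := Sat.ne_zero_of_not_dvd hs
  have hyE : IsIntegral E y := by
    have h3 : IsIntegral E (s • y) := h1.tower_top
    have h4 : y = (algebraMap A[X] E s)⁻¹ • (s • y) := by
      rw [← algebraMap_smul E s y, smul_smul, inv_mul_cancel₀, one_smul]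
      rwa [Ne, map_eq_zero_iff _ hinj]
    rw [h4]
    exact h3.smul _
  have key : ∀ a : A[X], a ≠ 0 → IsIntegral A[X] (a • y) → ∀ i,
      (minpoly E y).coeff i * algebraMap A[X] E (a ^ ((minpoly E y).natDegree - i))
        = algebraMap A[X] E ((minpoly A[X] (a • y)).coeff i) := by
    intro a ha hay i
    have e1 : minpoly E (a • y) = (minpoly A[X] (a • y)).map (algebraMap A[X] E) :=
      minpoly.isIntegrallyClosed_eq_field_fractions' E hay
    have e2 : minpoly E ((algebraMap A[X] E a) • y)
        = (minpoly E y).scaleRoots (algebraMap A[X] E a) :=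
      IsIntegrallyClosed.minpoly_smul (by rwa [Ne, map_eq_zero_iff _ hinj]) hyE
    rw [algebraMap_smul] at e2
    have e3 := congrArg (fun p => p.coeff i) (e2.symm.trans e1)
    simp only [coeff_scaleRoots, coeff_map] at e3
    rw [map_pow]
    exact e3
  have hlift : minpoly E y ∈ Polynomial.lifts (algebraMap A[X] E) := by
    rw [Polynomial.lifts_iff_coeff_lifts]
    intro i
    have k1 := key s hs0 h1 i
    have k2 := key ((C π) ^ j) (pow_ne_zero _ (Sat.prime_C hπ).ne_zero) h2 i
    rw [← pow_mul] at k2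
    exact Sat.mem_range_of_mul hπ (Sat.not_dvd_pow hπ hs _) _ k1 k2
  obtain ⟨q, hq, -, hqm⟩ := Polynomial.lifts_and_natDegree_eq_and_monic hlift (minpoly.monic hyE)
  refine ⟨q, hqm, ?_⟩
  have := minpoly.aeval E y
  rw [← hq, aeval_map_algebraMap] at this
  exact this

/-- `evAt x` is `aeval x`. -/
theorem Sat_evAt_eq_aeval {K : Type*} [Field K] (x : LaurentSeries K) (Q : K[X]) :
    evAt x Q = aeval x Q := by
  have h : (algebraMap K (LaurentSeries K)) = HahnSeries.C := by
    ext1 a
    rw [HahnSeries.algebraMap_apply']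
    simp
  rw [evAt_apply, aeval_def, h]

attribute [local instance] Polynomial.algebra in
/-- clearing denominators. -/
theorem Sat_exists_smul {A K : Type*} [CommRing A] [IsDomain A] [Field K] [Algebra A K]
    [IsFractionRing A K] {Ω : Type*} [CommRing Ω] (ψ : K[X] →+* Ω) {z : Ω}
    (h : ψ.IsIntegralElem z) :
    ∃ a : A, a ≠ 0 ∧ (ψ.comp (mapRingHom (algebraMap A K))).IsIntegralElem
      (ψ (C (algebraMap A K a)) * z) := by
  let _ : Algebra K[X] Ω := ψ.toAlgebra
  let _ : Algebra A[X] Ω := (ψ.comp (mapRingHom (algebraMap A K))).toAlgebra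
  have : IsScalarTower A[X] K[X] Ω := IsScalarTower.of_algebraMap_eq (fun x => rfl)
  have := Polynomial.isLocalization (nonZeroDivisors A) K
  obtain ⟨⟨m, hm⟩, hmz⟩ := IsIntegral.exists_multiple_integral_of_isLocalization
    ((nonZeroDivisors A).map (C : A →+* A[X])) (Rₘ := K[X]) z h
  obtain ⟨a, ha, rfl⟩ := hm
  refine ⟨a, nonZeroDivisors.ne_zero ha, ?_⟩
  have : ψ (C (algebraMap A K a)) * z = (C a : A[X]) • z := by
    rw [Algebra.smul_def]
    show _ = ψ (mapRingHom (algebraMap A K) (C a)) * z
    simp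
  rw [this]
  exact hmz

/-- (IU-sat) -/
theorem isIntegralElem_of_sat {A K : Type*} [CommRing A] [IsDomain A] [IsDiscreteValuationRing A]
    [Field K] [Algebra A K] [IsFractionRing A K] (t y : LaurentSeries A)
    (ht : Transcendental K (coeffMap (algebraMap A K) t)) (m : ℕ)
    (h1 : (evAt t).IsIntegralElem (t ^ m * y))
    (h2 : (evAt (coeffMap (algebraMap A K) t)).IsIntegralElem (coeffMap (algebraMap A K) y)) :
    (evAt t).IsIntegralElem y := by
  obtain ⟨π, hirr⟩ := IsDiscreteValuationRing.exists_irreducible A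
  have hπ : Prime π := hirr.prime
  set ι := coeffMap (algebraMap A K) with hι
  have hιinj : Function.Injective ι := coeffMap_injective _ (IsFractionRing.injective A K)
  have hφ : ι.comp (evAt t) = (evAt (ι t)).comp (mapRingHom (algebraMap A K)) :=
    coeffMap_comp_evAt _ t
  let _ : Algebra A[X] (LaurentSeries K) := (ι.comp (evAt t)).toAlgebra
  have hinjΩ : Function.Injective (algebraMap A[X] (LaurentSeries K)) := by
    show Function.Injective (ι.comp (evAt t))
    rw [hφ]
    have h3 : Function.Injective (evAt (ι t)) := by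
      have := transcendental_iff_injective.1 ht
      intro P Q hPQ
      rw [Sat_evAt_eq_aeval, Sat_evAt_eq_aeval] at hPQ
      exact this hPQ
    exact h3.comp (Polynomial.map_injective _ (IsFractionRing.injective A K))
  -- `X^m • ι y` integral
  have hs : ¬ (C π : A[X]) ∣ X ^ m := by
    intro hd
    have := (Polynomial.C_dvd_iff_dvd_coeff _ _).1 hd m
    rw [coeff_X_pow, if_pos rfl] at this
    exact hπ.not_isUnit (isUnit_of_dvd_one this)
  have k1 : IsIntegral A[X] ((X ^ m : A[X]) • ι y) := by
    obtain ⟨P, hP, hP0⟩ := h1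
    refine ⟨P, hP, ?_⟩
    have h3 : (X ^ m : A[X]) • ι y = ι (t ^ m * y) := by
      rw [Algebra.smul_def]
      show ι (evAt t (X ^ m)) * ι y = _
      rw [map_pow, evAt_X, map_mul]
    rw [h3]
    show eval₂ (ι.comp (evAt t)) (ι (t ^ m * y)) P = 0
    rw [← Polynomial.hom_eval₂, hP0, map_zero]
  -- `π^j • ι y` integral
  obtain ⟨a, ha, hay⟩ := Sat_exists_smul (A := A) (evAt (ι t)) h2
  obtain ⟨j, u, hu⟩ := IsDiscreteValuationRing.eq_unit_mul_pow_irreducible ha hirr
  have k2 : IsIntegral A[X] ((C π : A[X]) ^ j • ι y) := by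
    have h3 : IsIntegral A[X] ((C a : A[X]) • ι y) := by
      have h4 : (C a : A[X]) • ι y = evAt (ι t) (C (algebraMap A K a)) * ι y := by
        rw [Algebra.smul_def]
        show (ι.comp (evAt t)) (C a) * ι y = _
        rw [hφ]
        simp
      rw [h4]
      show (ι.comp (evAt t)).IsIntegralElem _
      rw [hφ]
      exact hay
    have h5 : (C π : A[X]) ^ j • ι y = (C ((u⁻¹ : Aˣ) : A) : A[X]) • ((C a : A[X]) • ι y) := by
      rw [smul_smul, ← C_mul, hu, ← mul_assoc, Units.inv_mul, one_mul, C_pow]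
    rw [h5]
    exact h3.smul _
  obtain ⟨P, hP, hP0⟩ := Sat_abstract hπ hinjΩ hs k1 k2
  refine ⟨P, hP, hιinj ?_⟩
  rw [map_zero, Polynomial.hom_eval₂]
  exact hP0

end Fermat.Agent.S36.Mod.IntUnit
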