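import Fermat.Agent.S36.Mod.IntUnit.Level
import Fermat.Agent.S36.Mod.IntUnit.Formal
import Fermat.Agent.S36.Mod.IntUnit.Sat

/-!
# S36 / Mod / IntUnit / Main : (D6)

`hd : GM.HauptData M0 h P β`, `Nat.card (XN M0) = deg P` (`h` is a Hauptmodul), `xh = V ℤ e h`, `l ∤ M0` prime, `A` a DVR of characteristic `0`.
* `D6a` : `xh(q^l)` is integral over `A[xh]`;
* `D6b` : if `P(0) ∈ Aˣ` then `xh(q^l)⁻¹` is integral over `A[xh⁻¹]`.
* `card_XN_two`, `card_XN_three` : the extra hypothesis for `GM.hauptData_2`, `GM.hauptData_3`.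
-/

set_option autoImplicit false

open AlgebraicCurve ModularCurve Polynomial
open scoped IntermediateField

namespace Fermat.Agent.S36.Mod.IntUnit

open Fermat.Agent.S28 Fermat.Agent.S28.Build Fermat.Agent.Crux.GM Fermat.Agent.ES
open Fermat.Agent.S24 (Kb FN XN)

/-- `P(x) = j x`, `P` monic of degree `≥ 2`  ⟹  `x` is integral over `A[j]`. -/
theorem isIntegralElem_of_ident {A : Type*} [CommRing A] (P : A[X]) (hP : P.Monic)
    (hdeg : 2 ≤ P.natDegree) (x j : LaurentSeries A) (hid : evAt x P = j * x) :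
    (evAt j).IsIntegralElem x := by
  rcases subsingleton_or_nontrivial A with hs | hn
  · exact absurd hdeg (by rw [natDegree_of_subsingleton]; omega)
  refine ⟨P.map C - C X * X, ?_, ?_⟩
  · apply (hP.map C).sub_of_left
    rw [degree_map_eq_of_injective C_injective, degree_eq_natDegree hP.ne_zero]
    refine lt_of_le_of_lt (degree_C_mul_X_le _) ?_
    exact_mod_cast (by omega : 1 < P.natDegree)
  · rw [eval₂_sub, eval₂_mul, eval₂_C, eval₂_X, evAt_X, eval₂_map]
    have : (evAt j).comp C = (HahnSeries.C : A →+* LaurentSeries A) := by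
      ext1 a
      simp
    rw [this, ← evAt_apply, hid, sub_self]

section

variable (M0 l : ℕ) [NeZero M0] [NeZero l] (h : LaurentSeries ℤ) (P : ℤ[X]) (β : ℤ)
  (hd : HauptData M0 h P β)

include hd

theorem ident_A (A : Type*) [CommRing A] :
    evAt (castS A h) (P.map (Int.castRingHom A)) = V A M0 (J A) * castS A h := by
  have h2 := congrArg (coeffMap (Int.castRingHom A)) hd.ident
  rw [Build.coeffMap_evAt, map_mul, coeffMap_qExpand, coeffMap_jqModC] at h2
  exact h2

theorem ident_A_l (A : Type*) [CommRing A] [NeZero (M0 * l)] :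
    evAt (V A l (castS A h)) (P.map (Int.castRingHom A))
      = V A (M0 * l) (J A) * V A l (castS A h) := by
  have h2 := congrArg (V A l) (ident_A M0 h P β hd A)
  rw [Build.V_evAt, map_mul, qExpand_qExpand] at h2
  have : NeZero (l * M0) := ⟨Nat.mul_ne_zero (NeZero.ne l) (NeZero.ne M0)⟩
  rw [qExpand_congr (mul_comm l M0)] at h2
  exact h2

end

section

variable (M0 l : ℕ) [NeZero M0] [NeZero l] (h : LaurentSeries ℤ) (P : ℤ[X]) (β : ℤ)
  (hd : HauptData M0 h P β) (hcard : Nat.card (XN M0) = P.natDegree) (hl : l.Prime)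
  (hlM : ¬ l ∣ M0)
variable {A : Type*} (K : Type*) [CommRing A] [IsDomain A] [IsDiscreteValuationRing A] [Field K]
  [CharZero K] [Algebra A K] [IsFractionRing A K]

include hd hcard hl hlM

/-- (D6) over any field of characteristic `0`. -/
theorem level_K (hP0 : P.eval 0 ≠ 0) :
    (evAt (castS K h)).IsIntegralElem (V K l (castS K h)) ∧
      (evAt (castS K h)⁻¹).IsIntegralElem (V K l (castS K h))⁻¹ := by
  have : NeZero (M0 * l) := ⟨Nat.mul_ne_zero (NeZero.ne M0) (NeZero.ne l)⟩
  obtain ⟨c1, c2⟩ := level_Qb M0 l h P β hd hcard hP0 hl hlM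
  have q1 : (evAt (castS ℚ h)).IsIntegralElem (V ℚ l (castS ℚ h)) := by
    apply isIntegralElem_descent (algebraMap ℚ Qb)
    rw [coeffMap_qExpand, coeffMap_castS]
    exact c1
  have q2 : (evAt (castS ℚ h)⁻¹).IsIntegralElem (V ℚ l (castS ℚ h))⁻¹ := by
    apply isIntegralElem_descent (algebraMap ℚ Qb)
    rw [map_inv₀, map_inv₀, coeffMap_qExpand, coeffMap_castS]
    exact c2
  have k1 := IntTower.isIntegralElem_coeffMap (algebraMap ℚ K) q1
  have k2 := IntTower.isIntegralElem_coeffMap (algebraMap ℚ K) q2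
  rw [coeffMap_qExpand, coeffMap_castS] at k1
  rw [map_inv₀, map_inv₀, coeffMap_qExpand, coeffMap_castS] at k2
  exact ⟨k1, k2⟩

include K

theorem D6a_one (hP0 : P.eval 0 ≠ 0) :
    (evAt (castS A h)).IsIntegralElem (V A l (castS A h)) := by
  have : NeZero (M0 * l) := ⟨Nat.mul_ne_zero (NeZero.ne M0) (NeZero.ne l)⟩
  have hmon : (P.map (Int.castRingHom A)).Monic := hd.monic.map _
  have hdeg : (P.map (Int.castRingHom A)).natDegree = P.natDegree := hd.monic.natDegree_map _
  have hy : (evAt (V A M0 (J A))).IsIntegralElem (V A l (castS A h)) :=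
    IntTower.isIntegralElem_trans (isIntegralElem_V_of_dvd A M0 (M0 * l) (dvd_mul_right M0 l)).1
      (isIntegralElem_of_ident _ hmon (by rw [hdeg]; exact hd.deg) _ _
        (ident_A_l M0 l h P β hd A))
  obtain ⟨m, hm⟩ := exists_pow_mul_isIntegralElem (castS A h) (V A M0 (J A)) (V A l (castS A h)) 1
    (P.map (Int.castRingHom A)) (by rw [pow_one]; exact (ident_A M0 h P β hd A).symm) hy
  refine isIntegralElem_of_sat (K := K) _ _ ?_ m hm ?_
  · rw [coeffMap_castS]
    exact CoordHAux.transcendental_castS K h hd.leading (by rw [hd.order]; omega)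
  · rw [coeffMap_qExpand, coeffMap_castS]
    exact (level_K M0 l h P β hd hcard hl hlM K hP0).1

theorem D6b_one (hP0 : IsUnit ((P.eval 0 : ℤ) : A)) (y : LaurentSeries A)
    (hy : castS A h * y = 1) : (evAt y).IsIntegralElem (V A l y) := by
  have : NeZero (M0 * l) := ⟨Nat.mul_ne_zero (NeZero.ne M0) (NeZero.ne l)⟩
  have hmon : (P.map (Int.castRingHom A)).Monic := hd.monic.map _
  have hdeg : (P.map (Int.castRingHom A)).natDegree = P.natDegree := hd.monic.natDegree_map _
  have hP0' : P.eval 0 ≠ 0 := by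
    intro h0
    rw [h0, Int.cast_zero] at hP0
    exact not_isUnit_zero hP0
  have hev : IsUnit ((P.map (Int.castRingHom A)).eval 0) := by
    rw [Polynomial.eval_zero_map, eq_intCast]
    exact hP0
  have hyl : V A l (castS A h) * V A l y = 1 := by rw [← map_mul, hy, map_one]
  have hy1 : (evAt (V A M0 (J A))).IsIntegralElem (V A l y) :=
    IntTower.isIntegralElem_trans (isIntegralElem_V_of_dvd A M0 (M0 * l) (dvd_mul_right M0 l)).1
      (isIntegralElem_inv _ hmon (by rw [hdeg]; exact hd.deg) hev _ _ _ hyl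
        (ident_A_l M0 l h P β hd A))
  have hj : V A M0 (J A) * y ^ (P.natDegree - 1) = evAt y (P.map (Int.castRingHom A)).reverse := by
    let _ : Invertible (castS A h) := ⟨y, by rw [mul_comm]; exact hy, hy⟩
    have h1 := Polynomial.eval₂_reverse_mul_pow (HahnSeries.C : A →+* LaurentSeries A) (castS A h)
      (P.map (Int.castRingHom A))
    have h2 : ⅟(castS A h) = y := rfl
    rw [h2, ← evAt_apply, ← evAt_apply, ident_A M0 h P β hd A, hdeg] at h1
    have h3 : y ^ P.natDegree = y ^ (P.natDegree - 1) * y := by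
      rw [← pow_succ]
      congr 1
      have := hd.deg
      omega
    have h4 : (castS A h) ^ P.natDegree * y ^ P.natDegree = 1 := by
      rw [← mul_pow, hy, one_pow]
    calc V A M0 (J A) * y ^ (P.natDegree - 1)
        = V A M0 (J A) * (castS A h * y) * y ^ (P.natDegree - 1) := by rw [hy, mul_one]
      _ = (V A M0 (J A) * castS A h) * y ^ P.natDegree := by rw [h3]; ring
      _ = evAt y (P.map (Int.castRingHom A)).reverse
            * ((castS A h) ^ P.natDegree * y ^ P.natDegree) := by rw [← h1]; ring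
      _ = _ := by rw [h4, mul_one]
  obtain ⟨m, hm⟩ := exists_pow_mul_isIntegralElem y (V A M0 (J A)) (V A l y) (P.natDegree - 1)
    (P.map (Int.castRingHom A)).reverse hj hy1
  have hι : coeffMap (algebraMap A K) y = (castS K h)⁻¹ := by
    apply eq_inv_of_mul_eq_one_right
    rw [← coeffMap_castS (algebraMap A K) h, ← map_mul, hy, map_one]
  refine isIntegralElem_of_sat (K := K) _ _ ?_ m hm ?_
  · rw [hι]
    intro halg
    have := halg.inv
    rw [inv_inv] at this
    exact CoordHAux.transcendental_castS K h hd.leading (by rw [hd.order]; omega) this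
  · rw [coeffMap_qExpand, hι, map_inv₀]
    exact (level_K M0 l h P β hd hcard hl hlM K hP0').2

variable (e : ℕ) [NeZero e]

/-- **(D6a)** -/
theorem D6a (hP0 : P.eval 0 ≠ 0) :
    (evAt (castS A (V ℤ e h))).IsIntegralElem (V A l (castS A (V ℤ e h))) := by
  have h1 := IntTower.isIntegralElem_V e (D6a_one M0 l h P β hd hcard hl hlM K (A := A) hP0)
  have : NeZero (e * l) := ⟨Nat.mul_ne_zero (NeZero.ne e) (NeZero.ne l)⟩
  have : NeZero (l * e) := ⟨Nat.mul_ne_zero (NeZero.ne l) (NeZero.ne e)⟩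
  rw [CoordHAux.castS_V, qExpand_qExpand, qExpand_congr (mul_comm l e), ← qExpand_qExpand]
  exact h1

/-- **(D6b)** -/
theorem D6b (hP0 : IsUnit ((P.eval 0 : ℤ) : A)) (y : LaurentSeries A)
    (hy : castS A (V ℤ e h) * y = 1) : (evAt y).IsIntegralElem (V A l y) := by
  have hu : IsUnit (castS A h) := by
    rw [HahnSeries.isUnit_iff, HahnSeries.leadingCoeff_eq, order_castS h hd.leading,
      castS_coeff_order h hd.leading]
    exact isUnit_one
  obtain ⟨u, hu⟩ := hu
  have hy0 : castS A h * (↑u⁻¹ : LaurentSeries A) = 1 := by rw [← hu]; exact u.mul_inv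
  have h1 := IntTower.isIntegralElem_V e
    (D6b_one M0 l h P β hd hcard hl hlM K (A := A) hP0 _ hy0)
  have hyV : y = V A e (↑u⁻¹ : LaurentSeries A) := by
    have h2 : castS A (V ℤ e h) * V A e (↑u⁻¹ : LaurentSeries A) = 1 := by
      rw [CoordHAux.castS_V, ← map_mul, hy0, map_one]
    calc y = (castS A (V ℤ e h) * V A e (↑u⁻¹ : LaurentSeries A)) * y := by rw [h2, one_mul]
      _ = (castS A (V ℤ e h) * y) * V A e (↑u⁻¹ : LaurentSeries A) := by ring
      _ = _ := by rw [hy, one_mul]
  have : NeZero (e * l) := ⟨Nat.mul_ne_zero (NeZero.ne e) (NeZero.ne l)⟩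
  have : NeZero (l * e) := ⟨Nat.mul_ne_zero (NeZero.ne l) (NeZero.ne e)⟩
  rw [hyV, qExpand_qExpand, qExpand_congr (mul_comm l e), ← qExpand_qExpand]
  exact h1

end

theorem card_XN_prime (p : ℕ) [NeZero p] (hp : p.Prime) : Nat.card (XN p) = p + 1 := by
  have h1 := Fermat.Agent.SS.GM2.card_XN_mul 1 p hp (by
    intro h
    exact hp.one_lt.ne' (Nat.dvd_one.mp h))
  have h2 : Nat.card (XN 1) = 1 := by
    have : Nat.card (XN 1) = dedekindPsi 1 := by
      rw [← Gamma0Comb.index_Gamma0 1]
      rfl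
    rw [this, dedekindPsi_one]
  rw [h2, mul_one] at h1
  have h3 : Nat.card (XN (1 * p)) = Nat.card (XN p) := by rw [one_mul]
  rw [← h3, h1]

theorem card_XN_two : Nat.card (XN 2) = (((X : ℤ[X]) + 16) ^ 3).natDegree := by
  rw [card_XN_prime 2 Nat.prime_two]
  have : ((X : ℤ[X]) + 16) = X + C 16 := by simp
  rw [this, natDegree_pow, natDegree_X_add_C]

theorem card_XN_three :
    Nat.card (XN 3) = (((X : ℤ[X]) + 27) * (X + 3) ^ 3).natDegree := by
  rw [card_XN_prime 3 Nat.prime_three]
  have h1 : ((X : ℤ[X]) + 27) = X + C 27 := by simp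
  have h2 : ((X : ℤ[X]) + 3) = X + C 3 := by simp
  rw [h1, h2, natDegree_mul (X_add_C_ne_zero _) (pow_ne_zero _ (X_add_C_ne_zero _)),
    natDegree_pow, natDegree_X_add_C, natDegree_X_add_C]

end Fermat.Agent.S36.Mod.IntUnit
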