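import Fermat.Agent.S24.FF.SumFormula
import Fermat.Agent.S17.FF.ValSubring
import Fermat.Agent.SS.GM2.Transfer

/-!
# S36 / Mod / IntUnit / Places : two poles exhaust the degree; the abstract core of (D6)    (tasks S36/IU-pole, S36/IU-core)

`K` algebraically closed of characteristic `0`, `F/K` a function field in one variable.

* `pole_mem_pair` (IU-pole).  If `v1 ≠ v2` are poles of `y` and `-ord_{v1} y - ord_{v2} y = [F : K(y)]` then every pole of `y` is `v1` or `v2`.
  PROOF.  `z := y⁻¹` is transcendental (`y = z⁻¹`; `Transcendental`/`IsAlgebraic.inv`), `K⟮z⟯ = K⟮y⟯` (`le_antisymm`, `IntermediateField.adjoin_simple_le_iff`, `inv_mem`, `mem_adjoin_simple_self`);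
  transport `FiniteDimensional` and `finrank` along this equality (`rw`/`▸`, or `IntermediateField.equivOfEq` + `Algebra.finrank_eq_of_equiv_equiv`; simplest: `obtain`/`subst`-free `have : K⟮z⟯ = K⟮y⟯`, then `this ▸ inferInstance`).
  `S24.FF.sum_ord_zeroPlaces K z hz : ∑ v ∈ (zeroPlaces_finite K z hz).toFinset, v.ord z = finrank K⟮z⟯ F`, `v.ord z = - v.ord y` (`Place.ord_inv`/`S24.FF.ord_div`, see `AlgebraicCurve.Place`).
  If `v ∉ {v1, v2}` is a pole then `{v, v1, v2} ⊆ zeroPlaces`, all terms are `> 0` (`mem_zeroPlaces`): `Finset.sum_le_sum_of_subset_of_nonneg` gives `ord_v z + ord_{v1} z + ord_{v2} z ≤ finrank`, contradiction.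
* `core` (IU-core).  See the statement.  PROOF.  `IsFF K F` from `hH`.  Both claims by `SS.GM2.isIntegralElem_of_forall_valuationSubring`: let `W` be a valuation subring containing the image of `K[X]`;
  so `K ⊆ W` (`aeval_C`) and `H ∈ W` resp. `H⁻¹ ∈ W` (`aeval_X`).  If `W = ⊤` trivial.  Otherwise `W = v.toValuationSubring` (`S17.FF.exists_place_of_valuationSubring`), `x ∈ W ↔ 0 ≤ v.ord x` (`S24.FF.ord_nonneg_iff`).
  (a) `0 ≤ ord_v H`.  If `ord_v Hl < 0` then `v ∈ {v1, v2}` (`pole_mem_pair` for `Hl`), but `ord_{v_i} H < 0`.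
  (b) `0 ≤ ord_v H⁻¹`, i.e. `ord_v H ≤ 0`.  Suppose `ord_v Hl⁻¹ < 0`, i.e. `0 < ord_v Hl`.  Then `ord_v (P(Hl)) = 0` (`P(Hl) = P(0) + Hl * (..)`: `Polynomial.divX_mul_X_add`; `ord_add_eq_of_lt`, `ord_algebraMap`; or: `P(Hl) ∈ W`,
      and it is a unit since `P(Hl) - P(0) ∈ m_W`), so `ord_v Jl = - ord_v Hl < 0`: `Jl ∉ W`.  Hence `J0 ∉ W` (`hJ` + `S28.IntVal.mem_of_isIntegralElem`, as in `SS.GM2.IntX.mem_valuationSubring`).
      If `ord_v H = 0` then `H⁻¹ ∈ W`, `P(H) ∈ W`, `J0 = P(H) H⁻¹ ∈ W`: contradiction.  So `ord_v H < 0`, `v ∈ {v1, v2}` (`pole_mem_pair` for `H`), but `ord_{v_i} Hl < 0`: contradiction.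
-/

set_option autoImplicit false

open AlgebraicCurve Polynomial
open scoped IntermediateField

namespace Fermat.Agent.S36.Mod.IntUnit

variable {K F : Type*} [Field K] [IsAlgClosed K] [CharZero K] [Field F] [Algebra K F]

/-- (IU-pole) -/
theorem pole_mem_pair (y : F) (hy : Transcendental K y) [FiniteDimensional K⟮y⟯ F]
    (v1 v2 : Place K F) (hne : v1 ≠ v2) (h1 : v1.ord y < 0) (h2 : v2.ord y < 0)
    (hsum : - v1.ord y - v2.ord y = (Module.finrank K⟮y⟯ F : ℤ))
    (v : Place K F) (hv : v.ord y < 0) : v = v1 ∨ v = v2 := by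
  classical
  have hzt : Transcendental K y⁻¹ := by
    intro halg
    apply hy
    have := halg.inv
    rwa [inv_inv] at this
  have hadj : K⟮y⁻¹⟯ = K⟮y⟯ := by
    apply le_antisymm
    · rw [IntermediateField.adjoin_simple_le_iff]
      exact inv_mem (IntermediateField.mem_adjoin_simple_self K y)
    · rw [IntermediateField.adjoin_simple_le_iff]
      have := inv_mem (IntermediateField.mem_adjoin_simple_self K y⁻¹)
      rwa [inv_inv] at this
  have hfd : FiniteDimensional K⟮y⁻¹⟯ F := by rw [hadj]; infer_instance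
  have hfr : Module.finrank K⟮y⁻¹⟯ F = Module.finrank K⟮y⟯ F := by rw [hadj]
  have hsumz := Fermat.Agent.S24.FF.sum_ord_zeroPlaces K y⁻¹ hzt
  by_contra hcon
  push Not at hcon
  have hmem : ∀ w : Place K F, w.ord y < 0 →
      w ∈ (Fermat.Agent.S24.FF.zeroPlaces_finite K y⁻¹ hzt).toFinset := by
    intro w hw
    rw [Set.Finite.mem_toFinset, Fermat.Agent.S24.FF.mem_zeroPlaces, Place.ord_inv]
    omega
  have hsub : ({v, v1, v2} : Finset (Place K F)) ⊆
      (Fermat.Agent.S24.FF.zeroPlaces_finite K y⁻¹ hzt).toFinset := by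
    intro w hw
    simp only [Finset.mem_insert, Finset.mem_singleton] at hw
    rcases hw with rfl | rfl | rfl
    · exact hmem _ hv
    · exact hmem _ h1
    · exact hmem _ h2
  have hle := Finset.sum_le_sum_of_subset_of_nonneg (f := fun w : Place K F => w.ord y⁻¹) hsub
    (fun w hw _ => by
      rw [Set.Finite.mem_toFinset, Fermat.Agent.S24.FF.mem_zeroPlaces] at hw
      exact hw.le)
  rw [hsumz, hfr, ← hsum, Finset.sum_insert (by simp [hcon.1, hcon.2]),
    Finset.sum_insert (by simp [hne]), Finset.sum_singleton, Place.ord_inv, Place.ord_inv,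
    Place.ord_inv] at hle
  omega

omit [IsAlgClosed K] [CharZero K] in
theorem Places_aeval_mem (W : ValuationSubring F) (hK : ∀ a : K, algebraMap K F a ∈ W) {t : F}
    (ht : t ∈ W) (Q : K[X]) : aeval t Q ∈ W := by
  rw [aeval_eq_sum_range]
  exact sum_mem fun i _ => by
    rw [Algebra.smul_def]
    exact mul_mem (hK _) (pow_mem ht i)

/-- (IU-core) -/
theorem core (H Hl J0 Jl : F) (P : K[X]) (hP0 : P.eval 0 ≠ 0)
    (h1 : aeval H P = J0 * H) (h2 : aeval Hl P = Jl * Hl)
    (hJ : ((aeval J0 : K[X] →ₐ[K] F) : K[X] →+* F).IsIntegralElem Jl)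
    (hH : Transcendental K H) (hHl : Transcendental K Hl)
    [FiniteDimensional K⟮H⟯ F] [FiniteDimensional K⟮Hl⟯ F] (l : ℕ)
    (d1 : Module.finrank K⟮H⟯ F = l + 1) (d2 : Module.finrank K⟮Hl⟯ F = l + 1)
    (v1 v2 : Place K F) (hne : v1 ≠ v2)
    (o1 : v1.ord H = -1) (o2 : v1.ord Hl = -(l : ℤ)) (o3 : v2.ord H = -(l : ℤ))
    (o4 : v2.ord Hl = -1) (hl : 0 < l) :
    ((aeval H : K[X] →ₐ[K] F) : K[X] →+* F).IsIntegralElem Hl ∧
      ((aeval H⁻¹ : K[X] →ₐ[K] F) : K[X] →+* F).IsIntegralElem Hl⁻¹ := by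
  have hFF : S17.FF.IsFF K F := ⟨⟨H, hH, inferInstance⟩⟩
  have hl' : (0 : ℤ) < l := by exact_mod_cast hl
  have poleH : ∀ v : Place K F, v.ord H < 0 → v = v1 ∨ v = v2 := fun v hv =>
    pole_mem_pair H hH v1 v2 hne (by omega) (by omega) (by rw [d1]; push_cast; omega) v hv
  have poleHl : ∀ v : Place K F, v.ord Hl < 0 → v = v1 ∨ v = v2 := fun v hv =>
    pole_mem_pair Hl hHl v1 v2 hne (by omega) (by omega) (by rw [d2]; push_cast; omega) v hv
  have hH0 : H ≠ 0 := fun h => hH (h ▸ isAlgebraic_zero)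
  have hHl0 : Hl ≠ 0 := fun h => hHl (h ▸ isAlgebraic_zero)
  constructor
  · apply SS.GM2.isIntegralElem_of_forall_valuationSubring
    intro W hW
    have hK : ∀ a : K, algebraMap K F a ∈ W := fun a => by
      have := hW (C a)
      simpa using this
    have hHW : H ∈ W := by
      have := hW X
      simpa using this
    by_cases htop : W = ⊤
    · rw [htop]; exact ValuationSubring.mem_top _
    obtain ⟨v, rfl⟩ := S17.FF.exists_place_of_valuationSubring W hK htop
    rw [← S24.FF.ord_nonneg_iff] at hHW ⊢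
    by_contra hcon
    rw [not_le] at hcon
    rcases poleHl v hcon with rfl | rfl <;> omega
  · apply SS.GM2.isIntegralElem_of_forall_valuationSubring
    intro W hW
    have hK : ∀ a : K, algebraMap K F a ∈ W := fun a => by
      have := hW (C a)
      simpa using this
    have hHW : H⁻¹ ∈ W := by
      have := hW X
      simpa using this
    by_cases htop : W = ⊤
    · rw [htop]; exact ValuationSubring.mem_top _
    obtain ⟨v, rfl⟩ := S17.FF.exists_place_of_valuationSubring W hK htop
    have hHW' := hHW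
    rw [← S24.FF.ord_nonneg_iff, v.ord_inv] at hHW' ⊢
    by_contra hcon
    have hpos : 0 < v.ord Hl := by omega
    have hHlW : Hl ∈ v.toValuationSubring := (S24.FF.ord_nonneg_iff v).1 hpos.le
    -- `ord_v P(Hl) = 0`
    have hPne : P ≠ 0 := by
      rintro rfl
      simp at hP0
    have hPHl0 : aeval Hl P ≠ 0 := fun h => hPne (transcendental_iff.1 hHl P h)
    have hc0 : algebraMap K F (P.coeff 0) ≠ 0 := by
      rw [Ne, map_eq_zero, coeff_zero_eq_eval_zero]
      exact hP0
    have hsplit : aeval Hl P = algebraMap K F (P.coeff 0) + aeval Hl P.divX * Hl := by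
      conv_lhs => rw [← divX_mul_X_add P]
      rw [map_add, map_mul, aeval_X, aeval_C, add_comm]
    have hord0 : v.ord (aeval Hl P) = 0 := by
      rw [hsplit]
      by_cases hz : aeval Hl P.divX * Hl = 0
      · rw [hz, add_zero, S24.FF.ord_algebraMap]
      · have hd0 : aeval Hl P.divX ≠ 0 := left_ne_zero_of_mul hz
        have hd : 0 ≤ v.ord (aeval Hl P.divX) :=
          (S24.FF.ord_nonneg_iff v).2 (Places_aeval_mem _ hK hHlW _)
        rw [S24.FF.ord_add_eq_of_lt v hc0 hz
          (by rw [S24.FF.ord_algebraMap, v.ord_mul hd0 hHl0]; omega), S24.FF.ord_algebraMap]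
    have hJl0 : Jl ≠ 0 := by
      rintro rfl
      rw [zero_mul] at h2
      exact hPHl0 h2
    have hJl : v.ord Jl < 0 := by
      rw [h2, v.ord_mul hJl0 hHl0] at hord0
      omega
    have hJ0 : J0 ∉ v.toValuationSubring := by
      intro hmem
      have := S28.IntVal.mem_of_isIntegralElem v.toValuationSubring
        ((aeval J0 : K[X] →ₐ[K] F) : K[X] →+* F) (fun c => Places_aeval_mem _ hK hmem c) hJ
      rw [← S24.FF.ord_nonneg_iff] at this
      omega
    have hHneg : v.ord H < 0 := by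
      by_contra hge
      have hHmem : H ∈ v.toValuationSubring := (S24.FF.ord_nonneg_iff v).1 (by omega)
      apply hJ0
      have : J0 = aeval H P * H⁻¹ := by
        rw [h1, mul_assoc, mul_inv_cancel₀ hH0, mul_one]
      rw [this]
      exact mul_mem (Places_aeval_mem _ hK hHmem P) hHW
    rcases poleH v hHneg with rfl | rfl <;> omega

end Fermat.Agent.S36.Mod.IntUnit
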