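import Fermat.Agent.Crux.GM.CoordH
import Fermat.Agent.SS.Formal.AL
import Fermat.Agent.SS.GM2.Basis
import Fermat.Agent.S36.Mod.IntUnit.Places

/-!
# S36 / Mod / IntUnit / Level : (D6) over `ℚ̄`, at level `M0 * l`

`h` a Hauptmodul of level `M0` (`GM.HauptData` + `Nat.card (XN M0) = deg P`), `l ∤ M0` prime.  Then `h(q^l)` is integral over `ℚ̄[h]`
and `h(q^l)⁻¹` is integral over `ℚ̄[h⁻¹]`.
-/

set_option autoImplicit false

open AlgebraicCurve ModularCurve Polynomial
open scoped IntermediateField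

namespace Fermat.Agent.S36.Mod.IntUnit

open Fermat.Agent.S28 Fermat.Agent.S28.Build Fermat.Agent.Crux.GM Fermat.Agent.SS Fermat.Agent.ES
open Fermat.Agent.S24 (Kb FN XN)

/-- the place of an embedding into `K((q))` which has an element of order `-1`. -/
theorem exists_place_of_emb {K F : Type*} [Field K] [Field F] [Algebra K F]
    (τ : F →ₐ[K] LaurentSeries K) (u : F) (hu : (τ u).order = -1) :
    ∃ v : Place K F, ∀ f, f ≠ 0 → v.ord f = (τ f).order := by
  have hσne : ∀ (f : F), f ≠ 0 → τ f ≠ 0 := fun f hf =>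
    (map_ne_zero_iff _ τ.toRingHom.injective).mpr hf
  have hu0 : u ≠ 0 := by
    rintro rfl
    rw [map_zero, HahnSeries.order_zero] at hu
    omega
  obtain ⟨v, c, hc, hv⟩ : ∃ (v : Place K F) (c : ℕ), 0 < c ∧
      ∀ f, f ≠ 0 → (τ f).order = c * v.ord f := by
    refine Fermat.Agent.S24.FF.exists_place_of_ordFun (fun f => (τ f).order) ?_ ?_ ?_ ?_
    · intro f g hf hg
      show (τ (f * g)).order = _
      rw [map_mul, HahnSeries.order_mul (hσne f hf) (hσne g hg)]
    · intro f g hf hg hfg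
      show _ ≤ (τ (f + g)).order
      rw [map_add]
      apply HahnSeries.min_order_le_order_add
      rw [← map_add]
      exact hσne _ hfg
    · intro c _
      show (τ (algebraMap K F c)).order = 0
      have h : algebraMap K (LaurentSeries K) c = HahnSeries.C c := by
        rw [HahnSeries.algebraMap_apply', PowerSeries.algebraMap_apply,
          HahnSeries.ofPowerSeries_C]
        rfl
      rw [AlgHom.commutes, h, HahnSeries.order_C]
    · exact ⟨u, hu0, by rw [hu]; omega⟩
  have h1 := hv u hu0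
  rw [hu] at h1
  have hc1 : (c : ℤ) = 1 := by
    have hdvd : (c : ℤ) ∣ 1 := ⟨-(v.ord u), by linarith⟩
    rcases Int.isUnit_iff.mp (isUnit_of_dvd_one hdvd) with h | h
    · exact h
    · omega
  refine ⟨v, fun f hf => ?_⟩
  rw [hv f hf, hc1, one_mul]

/-- integrality in an intermediate field of `K((q))` versus `evAt`. -/
theorem isIntegralElem_coe_iff {K : Type*} [Field K] (S : IntermediateField K (LaurentSeries K))
    (x y : S) :
    ((aeval x : K[X] →ₐ[K] S) : K[X] →+* S).IsIntegralElem y ↔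
      (evAt (x : LaurentSeries K)).IsIntegralElem (y : LaurentSeries K) := by
  have hcomp : (algebraMap S (LaurentSeries K)).comp ((aeval x : K[X] →ₐ[K] S) : K[X] →+* S)
      = evAt (x : LaurentSeries K) := by
    apply Polynomial.ringHom_ext
    · intro a
      simp only [RingHom.comp_apply, RingHom.coe_coe, aeval_C, evAt_C]
      rw [← IsScalarTower.algebraMap_apply, HahnSeries.algebraMap_apply',
        PowerSeries.algebraMap_apply, HahnSeries.ofPowerSeries_C]
      rfl
    · simp only [RingHom.comp_apply, RingHom.coe_coe, aeval_X, evAt_X]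
      rfl
  have key : ∀ p : K[X][X], algebraMap S (LaurentSeries K)
      (eval₂ ((aeval x : K[X] →ₐ[K] S) : K[X] →+* S) y p)
        = eval₂ (evAt (x : LaurentSeries K)) (y : LaurentSeries K) p := by
    intro p
    rw [Polynomial.hom_eval₂, hcomp]
    rfl
  constructor
  · rintro ⟨p, hp, h⟩
    exact ⟨p, hp, by rw [← key, h, map_zero]⟩
  · rintro ⟨p, hp, h⟩
    refine ⟨p, hp, (algebraMap S (LaurentSeries K)).injective ?_⟩
    rw [key, h, map_zero]

/-- the degree over `K(x)` is invariant under an automorphism. -/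
theorem finrank_adjoin_map {K F : Type*} [Field K] [Field F] [Algebra K F] (e : F ≃ₐ[K] F) (x : F) :
    Module.finrank K⟮e x⟯ F = Module.finrank K⟮x⟯ F := by
  have hmap : (K⟮x⟯).map e.toAlgHom = K⟮e x⟯ := by
    rw [IntermediateField.adjoin_map, Set.image_singleton]
    rfl
  let i : K⟮x⟯ ≃+* K⟮e x⟯ :=
    ((IntermediateField.equivMap K⟮x⟯ e.toAlgHom).trans
      (IntermediateField.equivOfEq hmap)).toRingEquiv
  symm
  refine Algebra.finrank_eq_of_equiv_equiv i e.toRingEquiv ?_
  ext z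
  rfl

/-- **(D6) over `ℚ̄`.** -/
theorem level_Qb (M0 l : ℕ) [NeZero M0] [NeZero l] [NeZero (M0 * l)] (h : LaurentSeries ℤ)
    (P : ℤ[X]) (β : ℤ) (hd : HauptData M0 h P β) (hcard : Nat.card (XN M0) = P.natDegree)
    (hP0 : P.eval 0 ≠ 0) (hl : l.Prime) (hlM : ¬ l ∣ M0) :
    (evAt (castS Qb h)).IsIntegralElem (V Qb l (castS Qb h)) ∧
      (evAt (castS Qb h)⁻¹).IsIntegralElem (V Qb l (castS Qb h))⁻¹ := by
  obtain ⟨w, hw⟩ := exists_isAL M0 l hl hlM
  have hbar : ∀ (N : ℕ) [NeZero N], modularFunctionFieldBar N = modularFunctionFieldFullC Kb N :=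
    fun N _ => Fermat.Agent.S17.IsFFAux.laurentBaseChange_eq_fullC _ N
  have hM0 : (M0 : Kb) ≠ 0 := by exact_mod_cast NeZero.ne M0
  let h0 : FF M0 := ⟨castS Kb h, by rw [hbar]; exact hd.mem Kb hM0⟩
  obtain ⟨H, hH⟩ : ∃ H : FF (M0 * l), H = heckeAlphaBar Qb M0 l h0 := ⟨_, rfl⟩
  obtain ⟨Hl, hHl⟩ : ∃ Hl : FF (M0 * l), Hl = heckeBetaBar Qb M0 l h0 := ⟨_, rfl⟩
  have cH : (H : LaurentSeries Qb) = castS Qb h := by rw [hH, coe_heckeAlphaBar]
  have cHl : (Hl : LaurentSeries Qb) = V Qb l (castS Qb h) := by rw [hHl, coe_heckeBetaBar]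
  have wH : w H = Hl := by rw [hH, hHl]; exact hw.alpha h0
  have wHl : w Hl = H := by rw [hH, hHl]; exact hw.beta h0
  -- orders
  have hordV := CoordHAux.order_V l h hd.order hd.leading
  have hleadV := CoordHAux.leadingCoeff_V l h hd.order hd.leading
  have oH : (H : LaurentSeries Qb).order = -1 := by
    rw [cH, CoordHAux.order_castS' h hd.leading, hd.order]
  have oHl : (Hl : LaurentSeries Qb).order = -(l : ℤ) := by
    rw [cHl, ← CoordHAux.castS_V, CoordHAux.order_castS' _ hleadV, hordV]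
  have hlpos : (0 : ℤ) < l := by exact_mod_cast hl.pos
  -- transcendence
  have trH : Transcendental Qb H := by
    rw [← transcendental_algebraMap_iff
      (algebraMap (FF (M0 * l)) (LaurentSeries Qb)).injective]
    show Transcendental Qb (H : LaurentSeries Qb)
    rw [cH]
    exact CoordHAux.transcendental_castS Qb h hd.leading (by rw [hd.order]; omega)
  have trHl' : Transcendental Qb (castS Qb (V ℤ l h)) :=
    CoordHAux.transcendental_castS Qb _ hleadV (by rw [hordV]; omega)
  have trHl : Transcendental Qb Hl := by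
    rw [← transcendental_algebraMap_iff
      (algebraMap (FF (M0 * l)) (LaurentSeries Qb)).injective]
    show Transcendental Qb (Hl : LaurentSeries Qb)
    rw [cHl, ← CoordHAux.castS_V]
    exact trHl'
  -- the polynomial
  have hmon : (P.map (Int.castRingHom Kb)).Monic := hd.monic.map _
  have hdeg : (P.map (Int.castRingHom Kb)).natDegree = P.natDegree := hd.monic.natDegree_map _
  have hev : (P.map (Int.castRingHom Kb)).eval 0 ≠ 0 := by
    rw [Polynomial.eval_zero_map, eq_intCast]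
    exact_mod_cast hP0
  have hidl := CoordHAux.ident_castS Kb M0 l h P hd.ident
  have hid0 : aeval (castS Kb h) (P.map (Int.castRingHom Kb)) = V Kb M0 (J Kb) * castS Kb h := by
    have h2 := congrArg (coeffMap (Int.castRingHom Kb)) hd.ident
    rw [Build.coeffMap_evAt, map_mul, coeffMap_qExpand, coeffMap_jqModC,
      UnitArg.evAt_eq_aeval] at h2
    exact h2
  -- degrees
  have hDpos : 0 < P.natDegree := lt_of_lt_of_le two_pos hd.deg
  have d2 : Module.finrank Qb⟮Hl⟯ (FF (M0 * l)) = l + 1 := by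
    have e1 := relfinrank_bar_eq_finrank (M0 * l) Hl
    rw [cHl, ← CoordHAux.castS_V] at e1
    have e0 : (Kb⟮castS Kb (V ℤ l h)⟯).relfinrank (modularFunctionFieldFullC Kb (M0 * l))
        = (Kb⟮castS Kb (V ℤ l h)⟯).relfinrank (modularFunctionFieldBar (M0 * l)) := by
      rw [hbar]
    have h2 := relfinrank_tower Kb (M0 * l) (castS Kb (V ℤ l h))
      (CoordHAux.mem_full_V Kb M0 l h (hd.mem Kb hM0)) trHl'
      (P.map (Int.castRingHom Kb)) hmon (by rw [hdeg]; exact hd.deg) hev hidl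
    rw [hdeg, ((exists_degree_basis_card (M0 * l)).2 Kb
      (fun p hp _ => by exact_mod_cast hp.ne_zero)).1,
      Fermat.Agent.SS.GM2.card_XN_mul M0 l hl hlM, hcard, mul_comm (l + 1)] at h2
    rw [← e1, ← e0]
    exact Nat.eq_of_mul_eq_mul_left hDpos h2
  let we : FF (M0 * l) ≃ₐ[Qb] FF (M0 * l) := AlgEquiv.ofAlgHom w w
    (AlgHom.ext fun x => hw.invol hl x) (AlgHom.ext fun x => hw.invol hl x)
  have d1 : Module.finrank Qb⟮H⟯ (FF (M0 * l)) = l + 1 := by
    have := finrank_adjoin_map we Hl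
    have e : we Hl = H := wHl
    rw [e] at this
    rw [this, d2]
  have : FiniteDimensional Qb⟮H⟯ (FF (M0 * l)) :=
    FiniteDimensional.of_finrank_pos (by rw [d1]; omega)
  have : FiniteDimensional Qb⟮Hl⟯ (FF (M0 * l)) :=
    FiniteDimensional.of_finrank_pos (by rw [d2]; omega)
  -- `j`
  let J0 : FF (M0 * l) := ⟨V Kb M0 (J Kb), by
    rw [hbar]; exact jqModCd_mem_full Kb (M0 * l) (dvd_mul_right M0 l)⟩
  let Jl : FF (M0 * l) := ⟨V Kb (M0 * l) (J Kb), by
    rw [hbar]; exact jqModCd_mem_full Kb (M0 * l) dvd_rfl⟩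
  have i1 : aeval H (P.map (Int.castRingHom Kb)) = J0 * H := by
    apply Subtype.ext
    rw [← IntermediateField.aeval_coe, MulMemClass.coe_mul, cH]
    exact hid0
  have i2 : aeval Hl (P.map (Int.castRingHom Kb)) = Jl * Hl := by
    apply Subtype.ext
    rw [← IntermediateField.aeval_coe, MulMemClass.coe_mul, cHl, ← CoordHAux.castS_V]
    exact hidl
  have hJ : ((aeval J0 : Kb[X] →ₐ[Kb] FF (M0 * l)) : Kb[X] →+* FF (M0 * l)).IsIntegralElem Jl := by
    rw [isIntegralElem_coe_iff]
    exact (isIntegralElem_V_of_dvd Kb M0 (M0 * l) (dvd_mul_right M0 l)).1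
  -- places
  have hH0 : H ≠ 0 := fun h0 => trH (h0 ▸ isAlgebraic_zero)
  have hHl0 : Hl ≠ 0 := fun h0 => trHl (h0 ▸ isAlgebraic_zero)
  obtain ⟨v1, hv1⟩ := exists_place_of_emb (modularFunctionFieldBar (M0 * l)).val H oH
  obtain ⟨v2, hv2⟩ := exists_place_of_emb ((modularFunctionFieldBar (M0 * l)).val.comp w) Hl
    (by
      show ((w Hl : FF (M0 * l)) : LaurentSeries Qb).order = -1
      rw [wHl, oH])
  have o1 : v1.ord H = -1 := (hv1 H hH0).trans oH
  have o2 : v1.ord Hl = -(l : ℤ) := (hv1 Hl hHl0).trans oHl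
  have o3 : v2.ord H = -(l : ℤ) := by
    rw [hv2 H hH0]
    show ((w H : FF (M0 * l)) : LaurentSeries Qb).order = _
    rw [wH, oHl]
  have o4 : v2.ord Hl = -1 := by
    rw [hv2 Hl hHl0]
    show ((w Hl : FF (M0 * l)) : LaurentSeries Qb).order = _
    rw [wHl, oH]
  have hne : v1 ≠ v2 := by
    rintro rfl
    rw [o1] at o3
    have : l = 1 := by omega
    exact hl.one_lt.ne' this
  obtain ⟨c1, c2⟩ := core H Hl J0 Jl (P.map (Int.castRingHom Kb)) hev i1 i2 hJ trH trHl l d1 d2
    v1 v2 hne o1 o2 o3 o4 hl.pos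
  rw [isIntegralElem_coe_iff] at c1 c2
  rw [IntermediateField.coe_inv, IntermediateField.coe_inv] at c2
  rw [cH, cHl] at c1 c2
  exact ⟨c1, c2⟩

end Fermat.Agent.S36.Mod.IntUnit
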